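import Fermat.Agent.S27x.Base.Contract
import Fermat.Agent.S27x.A.AOut
import Fermat.Agent.S27x.BC.BCFinOutProof
import Fermat.Agent.S27x.G3.BlockBCFin
import Fermat.Agent.S27x.Spec.ContractT
import Fermat.Agent.S27x.Spec.Step

/-!
# P-S27: the final assembly from the three remaining blocks (helper89)

`s27_of_pieces`: the statement of S27 from

* `Base.G2bOut` (GLUE + BELYI + G2b: analytic realisation of curves over `ℚ̄`),
* `Spec.NormalProp` (block D4: the reduction of a general integral Apéry model is normal),
* `Spec.LiftProp` (block D7: the specialisation map is surjective on `n`-torsion).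

Everything else is landed and used here: block A (`A.aOut`), the complexification and the base
case (`Base.t0_of_chain`), the descent `ℂ → K` (`BC.bcFinOut`), the reduction to finitely generated
constant fields (`G3.t2`), the induction on the number of generators
(`Spec.countOKOver_of_finGen_trans`) and the specialisation step (`Spec.t1Trans_of_blocks`).
-/

set_option autoImplicit false

namespace Fermat.Agent.S27x.Final

open AlgebraicCurve Fermat.Agent.S27x.Contract

universe u v

/-- The base case `(T0)` from the analytic realisation. -/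
theorem t0_of_g2bOut (hG : Base.G2bOut.{u, v}) : T0.{u, v} :=
  Base.t0_of_chain hG A.aOut BC.bcFinOut.{u, 0, v, 0}

/-- The count for all curves over all algebraically closed fields of characteristic zero. -/
theorem countOK_of_pieces (hG : Base.G2bOut.{u, v}) (hD4 : Spec.NormalProp.{u, v})
    (hD7 : Spec.LiftProp.{u, v})
    (K : Type u) (F : Type v) [Field K] [Field F] [Algebra K F] [IsAlgClosed K] [CharZero K]
    [IsCurveOver K F] [Algebra.EssFiniteType K F] : CountOK K F :=
  G3.t2.{u, v}
    (Spec.countOKOver_of_finGen_trans (t0_of_g2bOut hG) (Spec.t1Trans_of_blocks hD4 hD7)) K F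

/-- **S27 from the three remaining blocks.** -/
theorem s27_of_pieces (hG : Base.G2bOut.{u, v}) (hD4 : Spec.NormalProp.{u, v})
    (hD7 : Spec.LiftProp.{u, v})
    (K : Type u) (F : Type v) [Field K] [Field F] [Algebra K F] [IsAlgClosed K] [CharZero K]
    [IsCurveOver K F] [Algebra.EssFiniteType K F]
    (ℓ : ℕ) [Fact ℓ.Prime] (k : ℕ) :
    Nat.card (Pic0.torsion K F (ℓ ^ k)) = ℓ ^ (2 * genusFF K F * k) := by
  have h := countOK_of_pieces hG hD4 hD7 K F (ℓ ^ k) (pow_pos (Fact.out : ℓ.Prime).pos k)
  rw [h, ← pow_mul]
  congr 1
  ring

end Fermat.Agent.S27x.Final
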