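import Mathlib
import Fermat.Prelude.Def_AlgebraicCurve_DivisorClassGroup
import Fermat.Prelude.Def_AlgebraicCurve_IsCurveOver
import Fermat.Prelude.Def_AlgebraicCurve_Repartitions

/-!
# P-S27: top-level contract (helper27)

`s27_of_T : T0 → T1 → T2 → (statement of S27)` and
`s27_of_blocks : T0 → BlockBC → BlockDesc → T1 → (statement of S27)`; every block is an exact `Prop`
in the language of the Prelude (`Place`, `Pic0.torsion`, `genusFF`, `IsCurveOver`).
`CountOK K F := ∀ n > 0, Nat.card (Pic0.torsion K F n) = n ^ (2 * genusFF K F)`.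
All transcendence-degree bookkeeping is done HERE (induction on the number of generators):
`T1` only sees `k ⊆ K` algebraically closed with `K` algebraic over `k(t)`.

* `T0`   (G1 + G2 + internal G3): the torsion count for every curve over an algebraic closure
  of `ℚ`.
* `T2`: it suffices to treat constant fields algebraic over a finitely generated field; it follows
  (`t2_of_bc_desc`) from
  - `BlockBC`  (G3): invariance of the genus and of `#Pic⁰[n]` under extension of the
    algebraically closed constant field, and
  - `BlockDesc`: every curve is defined over the algebraic closure (inside `K`) of a finitely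
    generated subfield.
* `T1` (G4): one specialisation step, `k ⊆ K` algebraically closed, `K` algebraic over
  `k(t)`; the count for all curves over `k` implies the count for all curves over `K`.
-/

set_option autoImplicit false
set_option linter.style.haveILetI false

noncomputable section

namespace Fermat.Agent.S27x.Contract

open AlgebraicCurve IntermediateField

universe u v

/-- The torsion count for one function field: `#Pic⁰(F)[n] = n^(2g)` for all `n ≥ 1`. -/
def CountOK (K : Type u) (F : Type v) [Field K] [Field F] [Algebra K F] : Prop :=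
  ∀ n : ℕ, 0 < n → Nat.card (Pic0.torsion K F n) = n ^ (2 * genusFF K F)

/-- The torsion count for all curves (with function field in universe `v`) over `K`. -/
def CountOKOver (K : Type u) [Field K] : Prop :=
  ∀ (F : Type v) [Field F] [Algebra K F] [IsCurveOver K F] [Algebra.EssFiniteType K F],
    CountOK K F

/-- (G1 + G2): the count over an algebraic closure of `ℚ`. -/
def T0 : Prop :=
  ∀ (K : Type u) [Field K] [IsAlgClosed K] [CharZero K] [Algebra.IsAlgebraic ℚ K],
    CountOKOver.{u, v} K

/-- (G3): extension of the algebraically closed constant field `K → L`, `F₁ = L · F₀`. -/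
def BlockBC : Prop :=
  ∀ (K L : Type u) (F₀ F₁ : Type v) [Field K] [Field L] [Field F₀] [Field F₁]
    [Algebra K L] [Algebra K F₀] [Algebra L F₁] [Algebra F₀ F₁] [Algebra K F₁]
    [IsScalarTower K F₀ F₁] [IsScalarTower K L F₁]
    [IsAlgClosed K] [IsAlgClosed L] [CharZero K]
    [IsCurveOver K F₀] [Algebra.EssFiniteType K F₀]
    [IsCurveOver L F₁] [Algebra.EssFiniteType L F₁],
    IntermediateField.adjoin L (Set.range (algebraMap F₀ F₁)) = ⊤ →
      genusFF K F₀ = genusFF L F₁ ∧
        ∀ n : ℕ, 0 < n → Nat.card (Pic0.torsion K F₀ n) = Nat.card (Pic0.torsion L F₁ n)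

/-- The algebraic closure inside `K` of the subfield generated by a finite set. -/
def fieldOfDef {K : Type u} [Field K] [CharZero K] (s : Finset K) : IntermediateField ℚ K :=
  (algebraicClosure (IntermediateField.adjoin ℚ (s : Set K)) K).restrictScalars ℚ

/-- Field of definition: `F = K · F₁` with `F₁` a curve over `fieldOfDef s`. -/
def BlockDesc : Prop :=
  ∀ (K : Type u) (F : Type v) [Field K] [Field F] [Algebra K F] [IsAlgClosed K] [CharZero K]
    [IsCurveOver K F] [Algebra.EssFiniteType K F],
    ∃ (s : Finset K) (F₁ : IntermediateField (fieldOfDef s) F),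
      IsCurveOver (fieldOfDef s) F₁ ∧ Algebra.EssFiniteType (fieldOfDef s) F₁ ∧
        IntermediateField.adjoin K (Set.range (algebraMap F₁ F)) = ⊤

/-- (G4): one specialisation step. -/
def T1 : Prop :=
  ∀ (K : Type u) [Field K] [IsAlgClosed K] [CharZero K]
    (k : IntermediateField ℚ K) [IsAlgClosed k] (t : K),
    Algebra.IsAlgebraic (IntermediateField.adjoin k {t}) K →
      CountOKOver.{u, v} k → CountOKOver.{u, v} K

/-- `K` is algebraic over the subfield generated by at most `d` elements. -/
def FinGen (K : Type u) [Field K] [CharZero K] (d : ℕ) : Prop :=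
  ∃ s : Finset K, s.card ≤ d ∧ Algebra.IsAlgebraic (IntermediateField.adjoin ℚ (s : Set K)) K

section Plumbing

variable {K : Type u} [Field K] [CharZero K]

instance isAlgClosed_fieldOfDef [IsAlgClosed K] (s : Finset K) : IsAlgClosed (fieldOfDef s) :=
  (algebraicClosure.isAlgClosure (IntermediateField.adjoin ℚ (s : Set K)) K).isAlgClosed

theorem mem_fieldOfDef {s : Finset K} {x : K} :
    x ∈ fieldOfDef s ↔ IsAlgebraic (IntermediateField.adjoin ℚ (s : Set K)) x :=
  mem_algebraicClosure_iff

theorem subset_fieldOfDef (s : Finset K) : (s : Set K) ⊆ fieldOfDef s := by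
  intro x hx
  rw [SetLike.mem_coe, mem_fieldOfDef]
  exact isAlgebraic_algebraMap (⟨x, IntermediateField.subset_adjoin ℚ _ hx⟩ :
    IntermediateField.adjoin ℚ (s : Set K))

/-- algebraicity passes to a larger subfield (different base fields allowed). -/
theorem isAlgebraic_of_le {A : IntermediateField ℚ K} {k : IntermediateField ℚ K}
    (B : IntermediateField k K) (hle : A ≤ B.restrictScalars ℚ) {x : K}
    (hx : IsAlgebraic A x) : IsAlgebraic B x := by
  have h := IsAlgebraic.tower_top_of_subalgebra_le (R := ℚ) (S := K)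
    (A := A.toSubalgebra) (B := (B.restrictScalars ℚ).toSubalgebra) hle (x := x) hx
  exact h

end Plumbing

section Plumbing2

variable {K : Type u} [Field K] [CharZero K]

/-- the generators of `fieldOfDef s`, as elements of it. -/
def gens (s : Finset K) : Finset (fieldOfDef s) := by
  classical
  exact s.attach.image fun x => ⟨x.1, subset_fieldOfDef s x.2⟩

theorem card_gens_le (s : Finset K) : (gens s).card ≤ s.card := by
  classical
  unfold gens
  exact Finset.card_image_le.trans_eq Finset.card_attach

theorem mem_gens {s : Finset K} {y : fieldOfDef s} : y ∈ gens s ↔ (y : K) ∈ s := by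
  classical
  unfold gens
  rw [Finset.mem_image]
  constructor
  · rintro ⟨a, _, rfl⟩
    exact a.2
  · intro hy
    exact ⟨⟨(y : K), hy⟩, Finset.mem_attach _ _, Subtype.ext rfl⟩

/-- the inclusion `fieldOfDef s → K` as a `ℚ`-algebra map for the canonical `ℚ`-structures. -/
def inclRat (s : Finset K) : fieldOfDef s →ₐ[ℚ] K :=
  (algebraMap (fieldOfDef s) K).toRatAlgHom

theorem inclRat_apply (s : Finset K) (y : fieldOfDef s) : inclRat s y = (y : K) := rfl

theorem image_gens (s : Finset K) :
    (inclRat s) '' ((gens s : Finset (fieldOfDef s)) : Set (fieldOfDef s)) = (s : Set K) := by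
  ext x
  constructor
  · rintro ⟨y, hy, rfl⟩
    exact mem_gens.mp hy
  · intro hx
    exact ⟨⟨x, subset_fieldOfDef s hx⟩, mem_gens.mpr hx, rfl⟩

theorem finGen_fieldOfDef (s : Finset K) : FinGen (fieldOfDef s) s.card := by
  classical
  refine ⟨gens s, card_gens_le s, ⟨fun y => ?_⟩⟩
  have hy : IsAlgebraic (IntermediateField.adjoin ℚ (s : Set K)) (y : K) := mem_fieldOfDef.mp y.2
  have hmap : (IntermediateField.adjoin ℚ
      ((gens s : Finset (fieldOfDef s)) : Set (fieldOfDef s))).map (inclRat s)
      = IntermediateField.adjoin ℚ (s : Set K) := by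
    rw [IntermediateField.adjoin_map, image_gens]
  -- the ring hom `ℚ(gens) → ℚ(s)`
  let f : IntermediateField.adjoin ℚ ((gens s : Finset (fieldOfDef s)) : Set (fieldOfDef s)) →+*
      IntermediateField.adjoin ℚ (s : Set K) :=
    { toFun := fun x => ⟨((x : fieldOfDef s) : K), by
        rw [← hmap]; exact ⟨(x : fieldOfDef s), x.2, rfl⟩⟩
      map_one' := rfl
      map_mul' := fun _ _ => rfl
      map_zero' := rfl
      map_add' := fun _ _ => rfl }
  have hf : Function.Surjective f := by
    rintro ⟨a, ha⟩
    have ha' := ha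
    rw [← hmap] at ha'
    obtain ⟨x, hx, hxa⟩ := ha'
    exact ⟨⟨x, hx⟩, Subtype.ext hxa⟩
  refine IsAlgebraic.of_ringHom_of_comp_eq (f := f) (g := (algebraMap (fieldOfDef s) K))
    hy hf (algebraMap (fieldOfDef s) K).injective ?_
  rfl

end Plumbing2

theorem countOKOver_of_finGen (hQ : T0.{u, v}) (hStep : T1.{u, v}) :
    ∀ (d : ℕ) (K : Type u) [Field K] [IsAlgClosed K] [CharZero K],
      FinGen K d → CountOKOver.{u, v} K := by
  intro d
  induction d with
  | zero =>
    intro K _ _ _ ⟨s, hs, halg⟩
    have hs0 : s = ∅ := Finset.card_eq_zero.mp (Nat.le_zero.mp hs)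
    subst hs0
    haveI : Algebra.IsAlgebraic ℚ (IntermediateField.adjoin ℚ ((∅ : Finset K) : Set K)) :=
      (IntermediateField.isAlgebraic_adjoin_iff_isAlgebraic ℚ K).mpr (by simp)
    haveI : Algebra.IsAlgebraic ℚ K :=
      Algebra.IsAlgebraic.trans ℚ (IntermediateField.adjoin ℚ ((∅ : Finset K) : Set K)) K
    exact hQ K
  | succ d ih =>
    intro K _ _ _ ⟨s, hs, halg⟩
    classical
    by_cases hsd : s.card ≤ d
    · exact ih K ⟨s, hsd, halg⟩
    · have hcard : s.card = d + 1 := by omega
      obtain ⟨t, ht⟩ : s.Nonempty := Finset.card_pos.mp (by omega)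
      have hs'card : (s.erase t).card = d := by
        rw [Finset.card_erase_of_mem ht, hcard]; rfl
      have hle : IntermediateField.adjoin ℚ (s : Set K) ≤
          (IntermediateField.adjoin (fieldOfDef (s.erase t)) {t}).restrictScalars ℚ := by
        rw [IntermediateField.adjoin_le_iff]
        intro x hx
        by_cases hxt : x = t
        · subst hxt
          exact IntermediateField.mem_adjoin_simple_self (fieldOfDef (s.erase x)) x
        · have hxs : x ∈ s.erase t := Finset.mem_erase.mpr ⟨hxt, hx⟩
          have hxk : x ∈ fieldOfDef (s.erase t) := subset_fieldOfDef (s.erase t) hxs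
          exact IntermediateField.algebraMap_mem
            (IntermediateField.adjoin (fieldOfDef (s.erase t)) {t})
            (⟨x, hxk⟩ : fieldOfDef (s.erase t))
      have halg' : Algebra.IsAlgebraic
          (IntermediateField.adjoin (fieldOfDef (s.erase t)) {t}) K :=
        ⟨fun x => isAlgebraic_of_le _ hle (halg.isAlgebraic x)⟩
      have hk : CountOKOver.{u, v} (fieldOfDef (s.erase t)) := by
        apply ih (fieldOfDef (s.erase t))
        have := finGen_fieldOfDef (s.erase t)
        rwa [hs'card] at this
      exact hStep K (fieldOfDef (s.erase t)) t halg' hk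

/-- (T2): finite generation (up to algebraic closure) of the constant field suffices. -/
def T2 : Prop :=
  (∀ (d : ℕ) (K : Type u) [Field K] [IsAlgClosed K] [CharZero K],
      FinGen K d → CountOKOver.{u, v} K) →
    ∀ (K : Type u) [Field K] [IsAlgClosed K] [CharZero K], CountOKOver.{u, v} K

/-- (T2) from base change (G3) and the field of definition. -/
theorem t2_of_bc_desc (hBC : BlockBC.{u, v}) (hDesc : BlockDesc.{u, v}) : T2.{u, v} := by
  intro hfin K _ _ _ F _ _ _ _
  obtain ⟨s, F₁, hcurve, hess, hgen⟩ := hDesc K F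
  haveI := hcurve
  haveI := hess
  have h1 : CountOK (fieldOfDef s) F₁ :=
    hfin s.card (fieldOfDef s) (finGen_fieldOfDef s) F₁
  obtain ⟨hg, hn⟩ := hBC (fieldOfDef s) K F₁ F hgen
  intro n hn0
  rw [← hn n hn0, h1 n hn0, hg]

/-- The count for every curve over every algebraically closed field of characteristic zero. -/
theorem countOK_of_T (h0 : T0.{u, v}) (h1 : T1.{u, v}) (h2 : T2.{u, v})
    (K : Type u) (F : Type v) [Field K] [Field F] [Algebra K F] [IsAlgClosed K] [CharZero K]
    [IsCurveOver K F] [Algebra.EssFiniteType K F] : CountOK K F :=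
  h2 (countOKOver_of_finGen h0 h1) K F

/-- **S27 from (T0), (T1), (T2)** (exact shape of the frozen statement). -/
theorem s27_of_T (h0 : T0.{u, v}) (h1 : T1.{u, v}) (h2 : T2.{u, v})
    (K : Type u) (F : Type v) [Field K] [Field F] [Algebra K F] [IsAlgClosed K] [CharZero K]
    [IsCurveOver K F] [Algebra.EssFiniteType K F]
    (ℓ : ℕ) [Fact ℓ.Prime] (k : ℕ) :
    Nat.card (Pic0.torsion K F (ℓ ^ k)) = ℓ ^ (2 * genusFF K F * k) := by
  have h := countOK_of_T h0 h1 h2 K F (ℓ ^ k) (pow_pos (Fact.out : ℓ.Prime).pos k)
  rw [h, ← pow_mul]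
  congr 1
  ring

/-- **S27 from the four blocks** `T0`, `BlockBC`, `BlockDesc`, `T1`. -/
theorem s27_of_blocks (h0 : T0.{u, v}) (hBC : BlockBC.{u, v})
    (hDesc : BlockDesc.{u, v}) (h1 : T1.{u, v})
    (K : Type u) (F : Type v) [Field K] [Field F] [Algebra K F] [IsAlgClosed K] [CharZero K]
    [IsCurveOver K F] [Algebra.EssFiniteType K F]
    (ℓ : ℕ) [Fact ℓ.Prime] (k : ℕ) :
    Nat.card (Pic0.torsion K F (ℓ ^ k)) = ℓ ^ (2 * genusFF K F * k) :=
  s27_of_T h0 h1 (t2_of_bc_desc hBC hDesc) K F ℓ k

end Fermat.Agent.S27x.Contract
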