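/-
P-S27 (coordinator helper24): SKELETON.  The consumer Props of the blocks and the final assembly.

  S27  ⇐  FinTrdegHolds (C) + ReductionHolds (D)
  (C)  ⇐  BaseHolds (A) + StepHolds (B)            [block IND: induction on the transcendence degree]
  (A)  ⇐  G1 (modular count over ℂ) + G2 (Belyi + uniformisation) + G3 (constant field extension)
  (B)  ⇐  G4 (good specialisation in equal characteristic 0, rank one, residue field `k`)
  (D)  ⇐  G3 (descent to finite transcendence degree; torsion does not grow)

All Props are universe polymorphic: `K : Type u`, `F : Type v`.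
-/
import Mathlib
import Fermat.Prelude.Def_AlgebraicCurve_DivisorClassGroup
import Fermat.Prelude.Def_AlgebraicCurve_IsCurveOver
import Fermat.Prelude.Def_AlgebraicCurve_Repartitions

set_option autoImplicit false

open AlgebraicCurve IntermediateField

namespace Fermat.Agent.S27x

universe u v

/-- The count of the torsion classes for one function field: `#Pic⁰(F)[n] = n ^ (2 g)`. -/
def CountFor (K : Type u) (F : Type v) [Field K] [Field F] [Algebra K F] : Prop :=
  ∀ n : ℕ, 0 < n → Nat.card (Pic0.torsion K F n) = n ^ (2 * genusFF K F)

/-- The count for all curves (function fields in `Type v`) over `K`. -/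
def CountHolds (K : Type u) [Field K] : Prop :=
  ∀ (F : Type v) [Field F] [Algebra K F] [IsCurveOver K F] [Algebra.EssFiniteType K F],
    CountFor K F

/-- **(A)** The count over algebraically closed fields algebraic over `ℚ`
(blocks G1 + G2 + G3-up). -/
def BaseHolds : Prop :=
  ∀ (K : Type u) [Field K] [IsAlgClosed K] [CharZero K] [Algebra.IsAlgebraic ℚ K],
    CountHolds.{u, v} K

/-- **(B)** One step of transcendence degree one (block G4): if `K` is algebraically closed,
algebraic over `k(t)` with `t` transcendental over the algebraically closed field `k`, then the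
count over `k` implies the count over `K`. -/
def StepHolds : Prop :=
  ∀ (k K : Type u) [Field k] [Field K] [Algebra k K] [IsAlgClosed k] [CharZero k] [IsAlgClosed K]
    (t : K), Transcendental k t → Algebra.IsAlgebraic k⟮t⟯ K →
    CountHolds.{u, v} k → CountHolds.{u, v} K

/-- Finite transcendence degree over `ℚ`. -/
def FinTrdeg (K : Type u) [Field K] [CharZero K] : Prop :=
  ∃ (d : ℕ) (x : Fin d → K), IsTranscendenceBasis ℚ x

/-- **(C)** The count over all algebraically closed fields of finite transcendence degree. -/
def FinTrdegHolds : Prop :=
  ∀ (K : Type u) [Field K] [IsAlgClosed K] [CharZero K], FinTrdeg K → CountHolds.{u, v} K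

/-- **(D)** Reduction to finite transcendence degree (block G3-down): if the count holds over all
algebraically closed subfields of `K` of finite transcendence degree, it holds over `K`. -/
def ReductionHolds : Prop :=
  ∀ (K : Type u) [Field K] [IsAlgClosed K] [CharZero K],
    (∀ K0 : IntermediateField ℚ K, IsAlgClosed K0 → FinTrdeg K0 → CountHolds.{u, v} K0) →
    CountHolds.{u, v} K

/-- The count over all algebraically closed fields of characteristic zero. -/
theorem countHolds_of_blocks (hC : FinTrdegHolds.{u, v}) (hD : ReductionHolds.{u, v})
    (K : Type u) [Field K] [IsAlgClosed K] [CharZero K] : CountHolds.{u, v} K :=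
  hD K fun K0 h1 h2 => by
    have := h1
    exact hC K0 h2

/-- **S27 from the blocks.** -/
theorem s27_of_blocks (hC : FinTrdegHolds.{u, v}) (hD : ReductionHolds.{u, v})
    (K : Type u) (F : Type v) [Field K] [Field F] [Algebra K F] [IsAlgClosed K] [CharZero K]
    [IsCurveOver K F] [Algebra.EssFiniteType K F]
    (ℓ : ℕ) [Fact ℓ.Prime] (k : ℕ) :
    Nat.card (Pic0.torsion K F (ℓ ^ k)) = ℓ ^ (2 * genusFF K F * k) := by
  have h := countHolds_of_blocks hC hD K F (ℓ ^ k) (pow_pos (Fact.out : ℓ.Prime).pos k)
  rw [h, ← pow_mul]
  congr 1
  ring

end Fermat.Agent.S27x
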